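import Mathlib
import Fermat.Agent.TFin.Step1b

/-!
# Modularity lifting, step one: the minimal level, uniform version

No condition at `2`: the prime `2` is removed by Mazur's principle at `2` when `W[p]` is
unramified at `2`.
-/

set_option autoImplicit false
set_option linter.unusedSectionVars false
set_option linter.style.haveILetI false

noncomputable section

namespace Fermat.Agent.H18O

open Fermat.Agent.TW Fermat.Agent.CC Fermat.Agent.Ell Fermat.Agent.H12.LL Fermat.Agent.TFin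
open IsLocalRing CongruenceSubgroup
open ModularFormClass (qCoeff)

/-- the primes of the minimal level (`b`: is `p` a prime of the level?) -/
def RamU (W : WeierstrassCurve ℤ) (p : ℕ) (b : Prop) (q : ℕ) : Prop :=
  (q ≠ p ∧ ¬ UnrAt W p q) ∨ (q = p ∧ b)

open Classical in
/-- the set of the primes of the minimal level -/
def nsetU (W : WeierstrassCurve ℤ) (p : ℕ) (b : Prop) : Finset Nat.Primes :=
  (W.Δ.natAbs.primeFactors.filter (RamU W p b)).subtype Nat.Prime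

/-- the minimal level -/
def nU (W : WeierstrassCurve ℤ) (p : ℕ) (b : Prop) : ℕ := Q0 (nsetU W p b)

/-- Mazur's principle at `2` (for `p = 3` the level has an auxiliary prime `r = 2` modulo `3`) -/
def Mz2 (W : WeierstrassCurve ℤ) (p : ℕ) : Prop :=
  ∀ M : ℕ, ¬ 2 ∣ M → Squarefree M → (p = 3 → ∃ r : ℕ, r.Prime ∧ r % 3 = 2 ∧ r ∣ M) →
    UnrAt W p 2 → W.IsResiduallyModularOfLevel p (M * 2) → W.IsResiduallyModularOfLevel p M

/-- an auxiliary prime: there are no forms new at `r` congruent to `W` -/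
structure AuxR (W : WeierstrassCurve ℤ) (p : ℕ) [Fact p.Prime] (r : ℕ) : Prop where
  prime : r.Prime
  ne_two : r ≠ 2
  ne : r ≠ p
  good : ¬ (r : ℤ) ∣ W.Δ
  mod : r % 3 = 2
  tr : ∀ A : ValuationSubring Qb, A.LiesOverPrime r → ∀ φ : GQ, A.IsFrobeniusAt φ r →
    (PadicInt.toZMod (LinearMap.trace ℤ_[p] (TT (WQ W) p) (rr (WQ W) p φ))) ^ 2 ≠
      ((r : ZMod p) + 1) ^ 2

/-- the removal of the primes congruent to one modulo `p` (no condition of neatness) -/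
def LLU (W : WeierstrassCurve ℤ) (p : ℕ) [Fact p.Prime] (b : Prop) : Prop :=
  ∀ (T : Finset Nat.Primes) (M₀ : ℕ), Squarefree M₀ → Nat.Coprime (Q0 T) M₀ → (p ∣ M₀ ↔ b) →
    (p ∣ M₀ → ¬ W.IsResiduallyModularOfLevel p (Q0 T * (M₀ / p))) →
    (∀ q : ℕ, q.Prime → q ≠ p → q ∣ M₀ → ¬ UnrAt W p q) →
    (∀ t ∈ T, (t : ℕ) ≠ p) → (∀ t ∈ T, (t : ℕ) ≡ 1 [MOD p]) → (∀ t ∈ T, UnrAt W p t) →
    (∀ t ∈ T, ∀ A : ValuationSubring Qb, A.LiesOverPrime (t : ℕ) → ∀ φ : GQ,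
      A.IsFrobeniusAt φ t →
      (PadicInt.toZMod (LinearMap.trace ℤ_[p] (TT (WQ W) p) (rr (WQ W) p φ))) ^ 2 = 4) →
    W.IsResiduallyModularOfLevel p (Q0 T * M₀) → W.IsResiduallyModularOfLevel p M₀

/-- the level obtained by the first step, uniform version -/
structure MinU (W : WeierstrassCurve ℤ) (p : ℕ) [Fact p.Prime] (N : ℕ) : Prop where
  sq : Squarefree N
  rm : W.IsResiduallyModularOfLevel p N
  /-- the mode at `p` -/
  mode : p ∣ N ↔ ModeS W p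
  dvd_disc : ∀ q : ℕ, q.Prime → q ∣ N → (q : ℤ) ∣ W.Δ
  /-- the primes of the level different from `p` are ramified -/
  ram : ∀ q : ℕ, q.Prime → q ≠ p → q ∣ N → ¬ UnrAt W p q
  /-- the ramified primes divide the level -/
  dvd : ∀ q : ℕ, q.Prime → q ≠ p → ¬ UnrAt W p q → q ∣ N
  /-- `p` cannot be removed -/
  pnew : p ∣ N → ¬ W.IsResiduallyModularOfLevel p (N / p)

section

variable {W : WeierstrassCurve ℤ} {p : ℕ} {b : Prop}

theorem mem_nsetU (hΔ : W.Δ ≠ 0) {t : Nat.Primes} :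
    t ∈ nsetU W p b ↔ ((t : ℕ) : ℤ) ∣ W.Δ ∧ RamU W p b t := by
  classical
  have h1 : t ∈ nsetU W p b ↔ (t : ℕ) ∈ W.Δ.natAbs.primeFactors.filter (RamU W p b) :=
    Finset.mem_subtype (p := Nat.Prime)
  rw [h1, Finset.mem_filter, Nat.mem_primeFactors]
  constructor
  · rintro ⟨⟨-, h2, -⟩, h3⟩
    exact ⟨Int.natCast_dvd.mpr h2, h3⟩
  · rintro ⟨h2, h3⟩
    exact ⟨⟨t.2, Int.natCast_dvd.mp h2, Int.natAbs_ne_zero.mpr hΔ⟩, h3⟩

theorem nU_pos (W : WeierstrassCurve ℤ) (p : ℕ) (b : Prop) : 0 < nU W p b := Q0_pos _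

theorem squarefree_nU (W : WeierstrassCurve ℤ) (p : ℕ) (b : Prop) : Squarefree (nU W p b) :=
  squarefree_Q0 _

/-- the prime divisors of the minimal level -/
theorem prime_dvd_nU (hΔ : W.Δ ≠ 0) {q : ℕ} (hq : q.Prime) :
    q ∣ nU W p b ↔ (q : ℤ) ∣ W.Δ ∧ RamU W p b q := by
  constructor
  · intro h
    obtain ⟨t, ht, rfl⟩ := prime_dvd_Q0 hq h
    exact (mem_nsetU hΔ).mp ht
  · intro h
    exact dvd_Q0 (t := ⟨q, hq⟩) ((mem_nsetU hΔ).mpr h)

theorem p_dvd_nU (hΔ : W.Δ ≠ 0) (hp : p.Prime) :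
    p ∣ nU W p b ↔ (p : ℤ) ∣ W.Δ ∧ b := by
  rw [prime_dvd_nU hΔ hp]
  refine and_congr_right fun _ => ?_
  constructor
  · rintro (h | h)
    · exact absurd rfl h.1
    · exact h.2
  · exact fun h => Or.inr ⟨rfl, h⟩

/-- the ramified primes divide the minimal level -/
theorem dvd_nU_of_ram (hΔ : W.Δ ≠ 0) (hp : p.Prime) {q : ℕ} (hq : q.Prime) (hqp : q ≠ p)
    (h : ¬ UnrAt W p q) : q ∣ nU W p b :=
  (prime_dvd_nU hΔ hq).mpr ⟨dvd_disc_of_ram hp hq hqp h, Or.inl ⟨hqp, h⟩⟩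

/-- away from `p` the primes of the minimal level are ramified -/
theorem not_unrAt_of_dvd_nU (hΔ : W.Δ ≠ 0) {q : ℕ} (hq : q.Prime) (hqp : q ≠ p)
    (h : q ∣ nU W p b) : ¬ UnrAt W p q := by
  rcases ((prime_dvd_nU hΔ hq).mp h).2 with ⟨-, h⟩ | h
  · exact h
  · exact absurd h.1 hqp

variable [hp : Fact p.Prime]

/-- for `p ≠ 3` the uniform minimal level is a minimal level -/
theorem MinU.minLevel {N : ℕ} (h : MinU W p N) (hp2 : p ≠ 2) (hp3 : p ≠ 3) : MinLevel W p N where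
  sq := h.sq
  rm := h.rm
  mode := h.mode
  dvd_disc := h.dvd_disc
  ram q hq hqp hqN := Or.inl (h.ram q hq hqp hqN)
  dvd := h.dvd
  two := by
    by_cases hun : UnrAt W p 2
    · exact Or.inr ⟨hp3, hun⟩
    · exact Or.inl (h.dvd 2 Nat.prime_two hp2.symm hun)
  pnew := h.pnew

theorem AuxR.unr {r : ℕ} (h : AuxR W p r) : UnrAt W p r :=
  unrAt_of_good h.prime h.good fun hd => h.ne ((Nat.prime_dvd_prime_iff_eq h.prime hp.out).mp hd)

/-- an auxiliary prime can be removed from the level -/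
theorem AuxR.remove {r : ℕ} (h : AuxR W p r) (H : Step1In W p) (hΔ : W.Δ ≠ 0)
    (hirr : W.ModRepIsIrreducible p) {M : ℕ} (hsq : Squarefree (M * r))
    (hR : W.IsResiduallyModularOfLevel p (M * r)) : W.IsResiduallyModularOfLevel p M := by
  have hM0 : M ≠ 0 := fun h0 => hsq.ne_zero (by rw [h0, zero_mul])
  obtain ⟨L, hL, g, 𝔪, hLM, hg, h𝔪, hp𝔪, hx, hRL⟩ := H18R.exists_newform_level hΔ hirr
    hsq.ne_zero hR
  have hrL : ¬ r ∣ L := by
    intro hrL
    have hrL2 : ¬ r ^ 2 ∣ L := by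
      intro h2
      rw [pow_two] at h2
      exact h.prime.not_isUnit (hsq _ (h2.trans hLM))
    obtain ⟨A, hA, φ, hφ⟩ : ∃ A : ValuationSubring Qb, A.LiesOverPrime r ∧ ∃ φ : GQ,
        A.IsFrobeniusAt φ r := by
      obtain ⟨A, hA⟩ := Fermat.Agent.H05.exists_liesOverPrime Qb h.prime
      obtain ⟨φ, hφ⟩ := Fermat.Agent.H05.exists_isFrobeniusAt h.prime hA
      exact ⟨A, hA, φ, hφ⟩
    exact h.tr A hA φ hφ (H.sq hg ⟨𝔪, h𝔪, hp𝔪, hx⟩ h.prime h.ne hrL hrL2 hA hφ)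
  refine H18R.isResiduallyModular_mono hΔ hirr hRL ?_ hM0
  exact Nat.Coprime.dvd_of_dvd_mul_right
    (((Nat.Prime.coprime_iff_not_dvd h.prime).mpr hrL).symm) hLM

/-- Mazur's principle at `2`, without auxiliary prime -/
theorem Mz2.full (mz2 : Mz2 W p) (H : Step1In W p) (hΔ : W.Δ ≠ 0)
    (hirr : W.ModRepIsIrreducible p) (haux : p = 3 → ∃ r : ℕ, AuxR W p r) {M : ℕ}
    (h2M : ¬ 2 ∣ M) (hsq : Squarefree M) (hun : UnrAt W p 2)
    (hR : W.IsResiduallyModularOfLevel p (M * 2)) : W.IsResiduallyModularOfLevel p M := by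
  by_cases hp3 : p = 3
  · obtain ⟨r, hr⟩ := haux hp3
    by_cases hrM : r ∣ M
    · exact mz2 M h2M hsq (fun _ => ⟨r, hr.prime, hr.mod, hrM⟩) hun hR
    · have hcop : Nat.Coprime M r := ((Nat.Prime.coprime_iff_not_dvd hr.prime).mpr hrM).symm
      have hsqMr : Squarefree (M * r) :=
        (Nat.squarefree_mul_iff).mpr ⟨hcop, hsq, hr.prime.prime.squarefree⟩
      refine hr.remove H hΔ hirr hsqMr ?_
      refine mz2 (M * r) ?_ hsqMr (fun _ => ⟨r, hr.prime, hr.mod, dvd_mul_left _ _⟩) hun ?_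
      · intro h
        rcases (Nat.Prime.dvd_mul Nat.prime_two).mp h with h | h
        · exact h2M h
        · exact hr.ne_two ((Nat.prime_dvd_prime_iff_eq Nat.prime_two hr.prime).mp h).symm
      · exact H18R.isResiduallyModular_mono hΔ hirr hR
          (Nat.mul_dvd_mul_right (dvd_mul_right _ _) _)
          (mul_ne_zero hsqMr.ne_zero two_ne_zero)
  · exact mz2 M h2M hsq (fun h => absurd h hp3) hun hR

/-- **LIFT, step one**: all primes except `2`, those of the minimal level and a set of primes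
congruent to one modulo `p` can be removed from the level. -/
theorem exists_leftoverU (H : Step1In W p) (hΔ : W.Δ ≠ 0)
    (hirr : W.ModRepIsIrreducible p) {M : ℕ}
    (hM : Squarefree M) (hmode : p ∣ M → (p : ℤ) ∣ W.Δ ∧ b)
    (hR : W.IsResiduallyModularOfLevel p M) :
    ∃ T : Finset Nat.Primes, Disjoint (nsetU W p b) T ∧
      (∀ t ∈ T, Leftover W p t) ∧
      W.IsResiduallyModularOfLevel p (Nat.lcm 2 (nU W p b * Q0 T)) := by
  classical
  have hM0 : M ≠ 0 := hM.ne_zero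
  -- all primes of `M` outside of the minimal level and of `2`
  let T₁ : Finset Nat.Primes := (M.primeFactors.subtype Nat.Prime).filter
    fun t => t ∉ nsetU W p b ∧ (t : ℕ) ≠ 2
  have hT₁ : ∀ t : Nat.Primes, t ∈ T₁ ↔ (t : ℕ) ∣ M ∧ t ∉ nsetU W p b ∧ (t : ℕ) ≠ 2 := by
    intro t
    have h1 : t ∈ T₁ ↔ t ∈ (M.primeFactors.subtype Nat.Prime : Finset Nat.Primes) ∧
        (t ∉ nsetU W p b ∧ (t : ℕ) ≠ 2) := Finset.mem_filter
    have h2 : t ∈ (M.primeFactors.subtype Nat.Prime : Finset Nat.Primes) ↔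
        (t : ℕ) ∈ M.primeFactors := Finset.mem_subtype (p := Nat.Prime)
    rw [h1, h2, Nat.mem_primeFactors]
    exact ⟨fun h => ⟨h.1.2.1, h.2⟩, fun h => ⟨⟨t.2, h.1, hM0⟩, h.2⟩⟩
  have hdisj : ∀ T ⊆ T₁, Disjoint (nsetU W p b) T := by
    intro T hT
    rw [Finset.disjoint_right]
    exact fun t ht => ((hT₁ t).mp (hT ht)).2.1
  have hne0 : ∀ T : Finset Nat.Primes, Nat.lcm 2 (nU W p b * Q0 T) ≠ 0 := fun T =>
    Nat.lcm_ne_zero two_ne_zero (mul_ne_zero (nU_pos W p b).ne' (Q0_pos T).ne')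
  have hRT₁ : W.IsResiduallyModularOfLevel p (Nat.lcm 2 (nU W p b * Q0 T₁)) := by
    refine H18R.isResiduallyModular_mono hΔ hirr hR ?_ (hne0 _)
    rw [← Nat.prod_primeFactors_of_squarefree hM]
    refine Finset.prod_primes_dvd _ (fun q hq => (Nat.prime_of_mem_primeFactors hq).prime)
      fun q hq => ?_
    have hqp := Nat.prime_of_mem_primeFactors hq
    have hqM := Nat.dvd_of_mem_primeFactors hq
    by_cases hq2 : q = 2
    · rw [hq2]; exact Nat.dvd_lcm_left _ _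
    refine dvd_trans ?_ (Nat.dvd_lcm_right _ _)
    by_cases hmem : (⟨q, hqp⟩ : Nat.Primes) ∈ nsetU W p b
    · exact (dvd_Q0 hmem).trans (dvd_mul_right _ _)
    · exact (dvd_Q0 ((hT₁ ⟨q, hqp⟩).mpr ⟨hqM, hmem, hq2⟩)).trans (dvd_mul_left _ _)
  -- minimal choice
  let F : Finset (Finset Nat.Primes) :=
    T₁.powerset.filter fun T => W.IsResiduallyModularOfLevel p (Nat.lcm 2 (nU W p b * Q0 T))
  have hF : F.Nonempty := ⟨T₁, by
    rw [Finset.mem_filter, Finset.mem_powerset]; exact ⟨Finset.Subset.refl _, hRT₁⟩⟩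
  obtain ⟨T, hTF, hmin⟩ := Finset.exists_min_image F Finset.card hF
  rw [Finset.mem_filter, Finset.mem_powerset] at hTF
  obtain ⟨hTT, hRT⟩ := hTF
  have herase : ∀ t ∈ T, ¬ W.IsResiduallyModularOfLevel p
      (Nat.lcm 2 (nU W p b * Q0 (T.erase t))) := by
    intro t ht h
    have h1 := hmin (T.erase t) (by
      rw [Finset.mem_filter, Finset.mem_powerset]
      exact ⟨(Finset.erase_subset t T).trans hTT, h⟩)
    have h2 := Finset.card_erase_lt_of_mem ht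
    omega
  have hne2 : ∀ t ∈ T, (t : ℕ) ≠ 2 := fun t ht => ((hT₁ t).mp (hTT ht)).2.2
  have hnep : ∀ t ∈ T, (t : ℕ) ≠ p := by
    intro t ht h
    obtain ⟨h1, h2, -⟩ := (hT₁ t).mp (hTT ht)
    rw [h] at h1
    obtain ⟨h3, h4⟩ := hmode h1
    exact h2 ((mem_nsetU hΔ).mpr ⟨by rw [h]; exact h3, Or.inr ⟨h, h4⟩⟩)
  have hunr : ∀ t ∈ T, UnrAt W p t := by
    intro t ht
    by_contra h
    have h1 := dvd_nU_of_ram (b := b) hΔ hp.out t.2 (hnep t ht) h
    exact ((hT₁ t).mp (hTT ht)).2.1 ((mem_nsetU hΔ).mpr ((prime_dvd_nU hΔ t.2).mp h1))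
  have hsqT : ∀ T' ⊆ T₁, Squarefree (nU W p b * Q0 T') := fun T' hT' =>
    squarefree_mul_Q0 (hdisj T' hT')
  have hsqL : ∀ T' ⊆ T₁, Squarefree (Nat.lcm 2 (nU W p b * Q0 T')) := by
    intro T' hT'
    by_cases h2 : 2 ∣ nU W p b * Q0 T'
    · rw [Nat.lcm_eq_right h2]; exact hsqT T' hT'
    · rw [Nat.Coprime.lcm_eq_mul ((Nat.Prime.coprime_iff_not_dvd Nat.prime_two).mpr h2)]
      exact (Nat.squarefree_mul_iff).mpr
        ⟨(Nat.Prime.coprime_iff_not_dvd Nat.prime_two).mpr h2, Nat.prime_two.prime.squarefree,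
          hsqT T' hT'⟩
  have hsplit : ∀ t ∈ T, Nat.lcm 2 (nU W p b * Q0 T) =
      (Nat.lcm 2 (nU W p b * Q0 (T.erase t))) * (t : ℕ) := by
    intro t ht
    have h1 : nU W p b * Q0 T = (nU W p b * Q0 (T.erase t)) * (t : ℕ) := by
      rw [mul_assoc, ← Q0_erase ht]
    have hodd : Nat.Coprime 2 (t : ℕ) :=
      (Nat.coprime_primes Nat.prime_two t.2).mpr (hne2 t ht).symm
    rw [h1]
    refine Nat.dvd_antisymm (Nat.lcm_dvd ((Nat.dvd_lcm_left _ _).mul_right _)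
      (Nat.mul_dvd_mul_right (Nat.dvd_lcm_right _ _) _)) ?_
    have hcop : Nat.Coprime (Nat.lcm 2 (nU W p b * Q0 (T.erase t))) (t : ℕ) := by
      refine Nat.Coprime.coprime_dvd_left (Nat.lcm_dvd_mul _ _) (hodd.mul_left ?_)
      have h2 := hsqT T hTT
      rw [h1] at h2
      exact (Nat.squarefree_mul_iff.mp h2).1
    refine hcop.mul_dvd_of_dvd_of_dvd (Nat.lcm_dvd (Nat.dvd_lcm_left _ _) ?_)
      ((dvd_mul_left _ _).trans (Nat.dvd_lcm_right _ _))
    exact (dvd_mul_right _ _).trans (Nat.dvd_lcm_right _ _)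
  have hone : ∀ t ∈ T, (t : ℕ) ≡ 1 [MOD p] := by
    intro t ht
    by_contra h
    refine herase t ht (H.mz t.2 (hne2 t ht) (hnep t ht) (Nat.dvd_lcm_left _ _) ?_ h
      (hunr t ht) ?_)
    · rw [← hsplit t ht]; exact hsqL T hTT
    · rw [← hsplit t ht]; exact hRT
  refine ⟨T, hdisj T hTT, fun t ht =>
    ⟨hnep t ht, hne2 t ht, hone t ht, hunr t ht, ?_⟩, hRT⟩
  intro A hA φ hφ
  obtain ⟨L, hL, g, 𝔪, hLM, hg, h𝔪, hp𝔪, hx, hRL⟩ := H18R.exists_newform_level hΔ hirr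
    (hsqL T hTT).ne_zero hRT
  have htL : (t : ℕ) ∣ L := by
    by_contra htL
    refine herase t ht (H18R.isResiduallyModular_mono hΔ hirr hRL ?_ (hne0 _))
    rw [hsplit t ht] at hLM
    exact Nat.Coprime.dvd_of_dvd_mul_right
      (((Nat.Prime.coprime_iff_not_dvd t.2).mpr htL).symm) hLM
  have htL2 : ¬ (t : ℕ) ^ 2 ∣ L := by
    intro h
    rw [pow_two] at h
    exact t.2.not_isUnit (hsqL T hTT _ (h.trans hLM))
  rw [H.sq hg ⟨𝔪, h𝔪, hp𝔪, hx⟩ t.2 (hnep t ht) htL htL2 hA hφ]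
  have h8 : (((t : ℕ) : ℕ) : ZMod p) = 1 := by
    have := (ZMod.natCast_eq_natCast_iff _ _ _).mpr (hone t ht)
    rwa [Nat.cast_one] at this
  rw [h8]; norm_num

/-- **LIFT, step one, uniform form.** -/
theorem exists_minU (H : Step1In W p) (hΔ : W.Δ ≠ 0)
    (hirr : W.ModRepIsIrreducible p) (hp2 : p ≠ 2) (mz2 : Mz2 W p)
    (haux : p = 3 → ∃ r : ℕ, AuxR W p r) (ll : LLU W p (ModeS W p))
    {M₀ : ℕ} (hsq : Squarefree M₀) (hpM : p ∣ M₀ → (p : ℤ) ∣ W.Δ)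
    (hRM : W.IsResiduallyModularOfLevel p M₀) : ∃ N : ℕ, MinU W p N := by
  classical
  -- an even level
  have hsq2 : Squarefree (Nat.lcm 2 M₀) := by
    by_cases h2 : 2 ∣ M₀
    · rw [Nat.lcm_eq_right h2]; exact hsq
    · rw [Nat.Coprime.lcm_eq_mul ((Nat.Prime.coprime_iff_not_dvd Nat.prime_two).mpr h2)]
      exact (Nat.squarefree_mul_iff).mpr
        ⟨(Nat.Prime.coprime_iff_not_dvd Nat.prime_two).mpr h2, Nat.prime_two.prime.squarefree,
          hsq⟩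
  have hRM2 : W.IsResiduallyModularOfLevel p (Nat.lcm 2 M₀) :=
    H18R.isResiduallyModular_mono hΔ hirr hRM (Nat.dvd_lcm_right _ _) hsq2.ne_zero
  have hpM2 : p ∣ Nat.lcm 2 M₀ → (p : ℤ) ∣ W.Δ := by
    intro h
    refine hpM (((Nat.Prime.dvd_mul hp.out).mp (h.trans (Nat.lcm_dvd_mul _ _))).resolve_left ?_)
    exact fun h4 => hp2 ((Nat.prime_dvd_prime_iff_eq hp.out Nat.prime_two).mp h4)
  -- the mode at `p`
  obtain ⟨M, hM, hmode, hmode', hR⟩ : ∃ M : ℕ, Squarefree M ∧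
      (p ∣ M → (p : ℤ) ∣ W.Δ ∧ ModeS W p) ∧ (ModeS W p → (p : ℤ) ∣ W.Δ) ∧
      W.IsResiduallyModularOfLevel p M := by
    by_cases hS : ModeS W p
    · have h1 := hS _ hsq2 (Nat.dvd_lcm_left _ _) hRM2
      exact ⟨_, hsq2, fun _ => ⟨hpM2 h1, hS⟩, fun _ => hpM2 h1, hRM2⟩
    · have hS' := hS
      unfold ModeS at hS'
      push Not at hS'
      obtain ⟨M, h1, h2, h3, h4⟩ := hS'
      exact ⟨M, h1, fun h => absurd h h4, fun h => absurd h hS, h3⟩
  set b := ModeS W p with hb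
  obtain ⟨T, hdisj, hT, hRT⟩ := exists_leftoverU (b := b) H hΔ hirr hM hmode hR
  set N := nU W p b with hN
  have hcop : Nat.Coprime (Q0 T) N := (coprime_Q0 hdisj).symm
  have hsqN : Squarefree N := squarefree_nU W p b
  have hsqNT : Squarefree (Q0 T * N) := by
    rw [mul_comm]; exact squarefree_mul_Q0 hdisj
  have hpN : p ∣ N ↔ b := by
    rw [hN, p_dvd_nU hΔ hp.out]
    exact ⟨fun h => h.2, fun h => ⟨hmode' h, h⟩⟩
  have hpnew : ∀ K N : ℕ, Squarefree (K * N) → (p ∣ N ↔ b) → p ∣ N →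
      ¬ W.IsResiduallyModularOfLevel p (K * (N / p)) := fun K N hKN h1 h2 =>
    ModeS.not_rm (h1.mp h2) hΔ hirr hp2 (hKN.squarefree_of_dvd (dvd_mul_left _ _)) h2 hKN
  have hram : ∀ q : ℕ, q.Prime → q ≠ p → q ∣ N → ¬ UnrAt W p q := fun q hq hqp hqc =>
    not_unrAt_of_dvd_nU hΔ hq hqp hqc
  -- the prime `2`
  have hRN : W.IsResiduallyModularOfLevel p (Q0 T * N) := by
    rw [mul_comm N (Q0 T)] at hRT
    by_cases h2N : 2 ∣ N
    · rwa [Nat.lcm_eq_right (h2N.mul_left _)] at hRT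
    · have h2T : ¬ 2 ∣ Q0 T := by
        intro h
        obtain ⟨t, ht, h3⟩ := prime_dvd_Q0 Nat.prime_two h
        exact (hT t ht).ne_two h3
      have h2 : ¬ 2 ∣ Q0 T * N := fun h =>
        ((Nat.Prime.dvd_mul Nat.prime_two).mp h).elim h2T h2N
      have hun : UnrAt W p 2 := by
        by_contra hun
        exact h2N (dvd_nU_of_ram hΔ hp.out Nat.prime_two hp2.symm hun)
      rw [Nat.Coprime.lcm_eq_mul ((Nat.Prime.coprime_iff_not_dvd Nat.prime_two).mpr h2),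
        mul_comm] at hRT
      exact mz2.full H hΔ hirr haux h2 hsqNT hun hRT
  have hrmN : W.IsResiduallyModularOfLevel p N :=
    ll T _ hsqN hcop hpN (hpnew _ _ hsqNT hpN) hram
      (fun t ht => (hT t ht).ne_p) (fun t ht => (hT t ht).one) (fun t ht => (hT t ht).unr)
      (fun t ht => (hT t ht).tr) hRN
  refine ⟨N, hsqN, hrmN, hpN, fun q hq hqN => ((prime_dvd_nU hΔ hq).mp hqN).1, hram,
    fun q hq hqp hun => dvd_nU_of_ram hΔ hp.out hq hqp hun, ?_⟩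
  intro h
  have h7 := hpnew 1 _ (by rw [one_mul]; exact hsqN) hpN h
  rwa [one_mul] at h7

end

end Fermat.Agent.H18O
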