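import Mathlib
import Fermat.Agent.H18O.StepU
import Fermat.Agent.TFin.LiftAsm
import Fermat.Agent.TFin.HMode
import Fermat.Agent.H01.P2.Props

/-!
# Modularity lifting without condition at `2`
-/

set_option autoImplicit false
set_option linter.unusedSectionVars false

noncomputable section

namespace Fermat.Agent.H18O

open Fermat.Agent.TW Fermat.Agent.CC Fermat.Agent.Ell Fermat.Agent.H12.LL Fermat.Agent.TFin
open Fermat.Agent.H25 Fermat.Agent.H25.PT Fermat.Agent.H25.SB
open IsLocalRing CongruenceSubgroup WeierstrassCurve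

/-- the towers give newforms -/
def TowerU (p : ℕ) [Fact p.Prime] : Prop := ∀ W : WeierstrassCurve ℤ, W.Δ ≠ 0 →
  W.IsSemistableModel → W.ModRepIsIrreducible p → ∀ N : ℕ, MinU W p N → FinOut W

/-- level lowering at the primes congruent to one modulo `p` -/
def LLAll (p : ℕ) [Fact p.Prime] : Prop := ∀ W : WeierstrassCurve ℤ, W.Δ ≠ 0 →
  W.IsSemistableModel → W.ModRepIsIrreducible p → ∀ b : Prop, (b → (p : ℤ) ∣ W.Δ) → LLU W p b

/-- Mazur's principle at two -/
def Mz2All (p : ℕ) : Prop := ∀ W : WeierstrassCurve ℤ, W.Δ ≠ 0 →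
  W.IsSemistableModel → W.ModRepIsIrreducible p → Mz2 W p

/-- the auxiliary primes -/
def AuxAll (p : ℕ) [Fact p.Prime] : Prop := ∀ W : WeierstrassCurve ℤ, W.Δ ≠ 0 →
  W.IsSemistableModel → W.ModRepIsIrreducible p → ∃ r : ℕ, AuxR W p r

/-- **modularity lifting without condition at `2`** -/
def LiftU (p : ℕ) : Prop := ∀ W : WeierstrassCurve ℤ, W.Δ ≠ 0 →
  W.IsSemistableModel → W.ModRepIsIrreducible p →
  (∃ N : ℕ, Squarefree N ∧ (p ∣ N → (p : ℤ) ∣ W.Δ) ∧ W.IsResiduallyModularOfLevel p N) →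
  Mlc1IsModularModelOfExactConductorLevel W

variable {p : ℕ} [hp : Fact p.Prime]

/-- modularity lifting from its inputs -/
theorem liftU_of (hp2 : p ≠ 2) (hT : TowerU p) (hm : Mz2All p) (haux : p = 3 → AuxAll p)
    (hll : LLAll p) : LiftU p := by
  intro W hΔ hss hirr ⟨M₀, hsq, hpM, hRM⟩
  have hG : Geo p := geo_all hp.out
  have hS : ModeS W p → (p : ℤ) ∣ W.Δ := by
    intro hS
    have hne : Nat.lcm 2 M₀ ≠ 0 := Nat.lcm_ne_zero two_ne_zero hsq.ne_zero
    have hsq2 : Squarefree (Nat.lcm 2 M₀) := by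
      by_cases h2 : 2 ∣ M₀
      · rw [Nat.lcm_eq_right h2]; exact hsq
      · rw [Nat.Coprime.lcm_eq_mul ((Nat.Prime.coprime_iff_not_dvd Nat.prime_two).mpr h2)]
        exact (Nat.squarefree_mul_iff).mpr
          ⟨(Nat.Prime.coprime_iff_not_dvd Nat.prime_two).mpr h2, Nat.prime_two.prime.squarefree,
            hsq⟩
    have h1 := hS _ hsq2 (Nat.dvd_lcm_left _ _)
      (H18R.isResiduallyModular_mono hΔ hirr hRM (Nat.dvd_lcm_right _ _) hne)
    refine hpM (((Nat.Prime.dvd_mul hp.out).mp (h1.trans (Nat.lcm_dvd_mul _ _))).resolve_left ?_)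
    exact fun h4 => hp2 ((Nat.prime_dvd_prime_iff_eq hp.out Nat.prime_two).mp h4)
  obtain ⟨N, hN⟩ := exists_minU (step1In_of_geo hΔ hirr hp2 hG) hΔ hirr hp2
    (hm W hΔ hss hirr) (fun h3 => haux h3 W hΔ hss hirr) (hll W hΔ hss hirr _ hS) hsq hpM hRM
  exact (hT W hΔ hss hirr N hN).exactConductor hΔ hss hp2 hirr

/-- level lowering for `p ≠ 3` -/
theorem llAll_of_ne (hp2 : p ≠ 2) (hp3 : p ≠ 3) : LLAll p := by
  intro W hΔ hss hirr b hb
  have hG : Geo p := geo_all hp.out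
  have hGW : GWad p := gwad hp2 (CFT.EC.gw hp2)
  have h1 : LLprop W p b := by
    refine H19.LLp.llprop_of hΔ hirr hp2 hG (kill_of_Geo hΔ hirr hG)
      (nLIn_of_semistable hss) (fun q hq => newP W p hq) fun St => ?_
    by_cases h : b
    · rw [eq_true h]
      exact modeIn_true hGW (hb h) (hss p hp.out (hb h)) St
    · rw [eq_false h]
      exact modeIn_false hGW W St
  intro T M₀ hsq hcop hpM hnew hram h1' h2' h3' h4' hRM
  exact h1 T M₀ (Or.inl hp3) hsq hcop hpM hnew (fun q hq hqp hqM => Or.inl (hram q hq hqp hqM))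
    h1' h2' h3' h4' hRM

/-- the towers for `p ≠ 3` -/
theorem towerU_of_ne (hp2 : p ≠ 2) (hp3 : p ≠ 3) : TowerU p := by
  intro W hΔ hss hirr N hN'
  have hN := hN'.minLevel hp2 hp3
  have hG : Geo p := geo_all hp.out
  have hGW : GWad p := gwad hp2 (CFT.EC.gw hp2)
  by_cases hpΔ : (p : ℤ) ∣ W.Δ
  · by_cases hM : ModeS W p
    · exact finOut_FS hΔ hss hp2 hirr hG hN
        (iff_of_true (hN.mode.mpr hM) trivial) (fun q hq => newP W p hq)
        (modeW_true hGW hpΔ (hss p hp.out hpΔ))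
    · exact finOut_H hΔ hss hp2 hirr hGW hG hN hpΔ hM (newP W p Nat.prime_two)
  · exact finOut_FS hΔ hss hp2 hirr hG hN
      (iff_of_false (hN.p_not_dvd hpΔ) not_false) (fun q hq => newP W p hq)
      (modeW_false hGW hpΔ)

/-- **modularity lifting at `5`** without condition at `2`, from Mazur's principle at `2` -/
theorem liftU_five (hm : Mz2All 5) : LiftU 5 :=
  haveI : Fact (Nat.Prime 5) := ⟨Nat.prime_five⟩
  liftU_of (by norm_num) (towerU_of_ne (by norm_num) (by norm_num)) hm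
    (fun h => absurd h (by norm_num)) (llAll_of_ne (by norm_num) (by norm_num))

/-- the form used in phase two -/
theorem LiftU.liftOdd {p : ℕ} (h : LiftU p) : P2.LiftOdd p := by
  intro W hΔ hss _ hirr ⟨N, _, hsq, _, hpN, hRM⟩
  exact h W hΔ hss hirr ⟨N, hsq, hpN, hRM⟩

/-- the form used in phase two -/
theorem LiftU.liftThreeTwo (h : LiftU 3) : P2.LiftThreeTwo := by
  intro W hΔ hss _ _ hirr ⟨N, _, hsq, _, hpN, hRM⟩
  exact h W hΔ hss hirr ⟨N, hsq, hpN, hRM⟩

/-- the form used in phase two -/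
theorem mz2All_of (p : ℕ) (h : P2.Mz2 p) : Mz2All p := by
  intro W hΔ hss hirr M h2M hsq _ hun hRM
  exact h W hΔ hss hirr hun M h2M hsq hRM

/-- **LiftOdd 5** from Mazur's principle at `2` -/
theorem liftOdd_five (h : P2.Mz2 5) : P2.LiftOdd 5 := (liftU_five (mz2All_of 5 h)).liftOdd

end Fermat.Agent.H18O
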