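import Mathlib
import Fermat.Agent.H18O.LiftU
import Fermat.Agent.H12.LO.Top
import Fermat.Agent.H14U.HModeU

/-!
# Modularity lifting at `3` without condition at `2`
-/

set_option autoImplicit false
set_option linter.unusedSectionVars false

noncomputable section

namespace Fermat.Agent.H18O

open Fermat.Agent.TW Fermat.Agent.CC Fermat.Agent.Ell Fermat.Agent.H12.LL Fermat.Agent.TFin
open Fermat.Agent.H25 Fermat.Agent.H25.PT Fermat.Agent.H25.SB Fermat.Agent.H12.LO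
open IsLocalRing CongruenceSubgroup WeierstrassCurve

section

variable {W : WeierstrassCurve ℤ} {p : ℕ} [hp : Fact p.Prime]

theorem MinU.toLU {N : ℕ} (h : MinU W p N) : LU.MinLevelU W p N where
  sq := h.sq
  rm := h.rm
  mode := h.mode
  dvd_disc := h.dvd_disc
  ram := h.ram

/-- good auxiliary primes from the primes of helper12 -/
theorem auxR_of {r : ℕ} (hr : r.Prime) (hr2 : r ≠ 2) (hr3 : r % 3 = 2) (hrΔ : ¬ (r : ℤ) ∣ W.Δ)
    (h : UnOk W p r) : AuxR W p r where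
  prime := hr
  ne_two := hr2
  ne := h.ne
  good := hrΔ
  mod := hr3
  tr := h.tr

end

/-- existence of auxiliary primes at `3` -/
theorem exists_aux_three [Fact (Nat.Prime 3)] {W : WeierstrassCurve ℤ} (hΔ : W.Δ ≠ 0)
    (hss : W.IsSemistableModel) (hirr : W.ModRepIsIrreducible 3) :
    ∃ r : ℕ, r.Prime ∧ r ≠ 2 ∧ r % 3 = 2 ∧ ¬ (r : ℤ) ∣ W.Δ ∧ UnOk W 3 r := by
  obtain ⟨r, h1, h2, h3⟩ := exists_unOk_three hΔ hss hirr (insert 2 W.Δ.natAbs.primeFactors)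
  rw [Finset.mem_insert, not_or] at h1
  refine ⟨r, r.2, h1.1, h2, fun h => h1.2 ?_, h3⟩
  exact Nat.mem_primeFactors.mpr ⟨r.2, Int.natCast_dvd.mp h, Int.natAbs_ne_zero.mpr hΔ⟩

theorem auxAll_three [Fact (Nat.Prime 3)] : AuxAll 3 := by
  intro W hΔ hss hirr
  obtain ⟨r, h1, h2, h3, h4, h5⟩ := exists_aux_three hΔ hss hirr
  exact ⟨r, auxR_of h1 h2 h3 h4 h5⟩

theorem llAll (p : ℕ) [Fact p.Prime] (hp2 : p ≠ 2) : LLAll p := fun _ hΔ hss hirr _ hb =>
  llU hΔ hss hirr hp2 hb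

/-- the towers in the modes F and S, with an auxiliary prime -/
def TowFS (p : ℕ) [Fact p.Prime] : Prop := ∀ W : WeierstrassCurve ℤ, W.Δ ≠ 0 →
  W.IsSemistableModel → W.ModRepIsIrreducible p → ∀ N : ℕ, LU.MinLevelU W p N →
  (ModeS W p ∧ (p : ℤ) ∣ W.Δ) ∨ ¬ (p : ℤ) ∣ W.Δ → ∀ r : ℕ, r.Prime → r % 3 = 2 →
  ¬ (r : ℤ) ∣ W.Δ → UnOk W p r → p ∣ r + 1 → FinOut W

/-- the towers for `p = 3` -/
theorem towerU_three [Fact (Nat.Prime 3)] (hFS : TowFS 3) : TowerU 3 := by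
  intro W hΔ hss hirr N hN'
  have hN := hN'.toLU
  have hG : Geo 3 := geo_all Nat.prime_three
  have hGW : GWad 3 := gwad (by norm_num) (CFT.EC.gw (by norm_num))
  obtain ⟨r, h1, h2, h3, h4, h5⟩ := exists_aux_three hΔ hss hirr
  have h6 : 3 ∣ r + 1 := by omega
  by_cases hpΔ : ((3 : ℕ) : ℤ) ∣ W.Δ
  · by_cases hM : ModeS W 3
    · exact hFS W hΔ hss hirr N hN (Or.inl ⟨hM, hpΔ⟩) r h1 h3 h4 h5 h6
    · exact H14U.finOut_HU hΔ hss (by norm_num) hirr hGW hG hN hpΔ hM h1 h3 h4 h5 h6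
  · exact hFS W hΔ hss hirr N hN (Or.inr hpΔ) r h1 h3 h4 h5 h6

/-- **modularity lifting at `3`** without condition at `2` -/
theorem liftU_three [Fact (Nat.Prime 3)] (hFS : TowFS 3) (hm : Mz2All 3) : LiftU 3 :=
  liftU_of (by norm_num) (towerU_three hFS) hm (fun _ => auxAll_three)
    (llAll 3 (by norm_num))

end Fermat.Agent.H18O
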