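import Mathlib
import Fermat.Agent.H18O.Lift3
import Fermat.Agent.H26U.FinU2

/-!
# Modularity lifting at `3` and `5` without condition at `2`, from Mazur's principle at `2`
-/

set_option autoImplicit false
set_option linter.unusedSectionVars false

noncomputable section

namespace Fermat.Agent.H18O

open Fermat.Agent.TW Fermat.Agent.CC Fermat.Agent.Ell Fermat.Agent.H12.LL Fermat.Agent.TFin
open Fermat.Agent.H25 Fermat.Agent.H25.PT Fermat.Agent.H25.SB Fermat.Agent.H12.LO
open WeierstrassCurve

/-- the towers in the modes F and S -/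
theorem towFS (p : ℕ) [hp : Fact p.Prime] (hp2 : p ≠ 2) : TowFS p := by
  intro W hΔ hss hirr N hN h r hr hr3 hrΔ hun hneg
  exact LU.finOut_FSU hΔ hss hp2 hirr (gwad hp2 (CFT.EC.gw hp2)) (geo_all hp.out) hN h hr hr3
    hrΔ hun hneg

/-- **modularity lifting at `3`** without condition at `2` -/
theorem liftU_three' (hm : Mz2All 3) : LiftU 3 :=
  haveI : Fact (Nat.Prime 3) := ⟨Nat.prime_three⟩
  liftU_three (towFS 3 (by norm_num)) hm

/-- **LiftOdd 3** from Mazur's principle at `2` -/
theorem liftOdd_three (hm : Mz2All 3) : P2.LiftOdd 3 := (liftU_three' hm).liftOdd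

/-- **LiftThreeTwo** from Mazur's principle at `2` -/
theorem liftThreeTwo (hm : Mz2All 3) : P2.LiftThreeTwo := (liftU_three' hm).liftThreeTwo

/-- **LiftOdd 5** from Mazur's principle at `2` -/
theorem liftOdd_five' (hm : Mz2All 5) : P2.LiftOdd 5 := (liftU_five hm).liftOdd

end Fermat.Agent.H18O
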